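/-
A3 / S19, helper19 — piece ORD, part 1: Galois descent for equivariant functions.

`M` a set with an action of `G = Gal(ℚ̄/ℚ)`; functions `f : M → ℚ̄` with
`f (σ m) = σ (f m)` which are linearly independent over `ℚ` are linearly independent over `ℚ̄`.
Also: a `ℚ̄`-subalgebra of `M → ℚ̄` (`M` finite) separating points is everything.
Mathlib only.
-/
import Mathlib

set_option autoImplicit false

noncomputable section

namespace Fermat.Agent.S19.H19

open scoped BigOperators

/-- `ℚ̄`. -/
abbrev Qb : Type := AlgebraicClosure ℚ

/-- The absolute Galois group of `ℚ`. -/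
abbrev GalQ : Type := Qb ≃ₐ[ℚ] Qb

theorem isGalois_Qb_rat : IsGalois ℚ Qb := by
  have : Algebra.IsAlgebraic ℚ (AlgebraicClosure ℚ) := AlgebraicClosure.isAlgebraic ℚ
  have : IsAlgClosure ℚ (AlgebraicClosure ℚ) := ⟨inferInstance, inferInstance⟩
  have : Normal ℚ (AlgebraicClosure ℚ) := IsAlgClosure.normal ℚ (AlgebraicClosure ℚ)
  exact isGalois_iff.mpr ⟨inferInstance, inferInstance⟩

theorem exists_rat_of_fixed (x : Qb) (hx : ∀ σ : GalQ, σ x = x) :
    ∃ q : ℚ, algebraMap ℚ Qb q = x := by
  have := isGalois_Qb_rat
  exact (InfiniteGalois.mem_range_algebraMap_iff_fixed (k := ℚ) (K := Qb) x).mpr hx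

variable {M : Type*} (act : GalQ → M → M)

/-- Equivariant functions. -/
def IsEquivariant (f : M → Qb) : Prop := ∀ (σ : GalQ) (m : M), f (act σ m) = σ (f m)

variable {act}

/-- **Galois descent of linear relations.**  A `ℚ̄`-linear relation between equivariant functions
which are linearly independent over `ℚ` is trivial. -/
theorem linearIndependent_of_equivariant
    (hone : ∀ m, act 1 m = m)
    (hact : ∀ σ τ m, act σ (act τ m) = act (σ * τ) m)
    {ι : Type*} [Finite ι] (f : ι → M → Qb) (hf : ∀ i, IsEquivariant act (f i))
    (hQ : LinearIndependent ℚ f) : LinearIndependent Qb f := by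
  classical
  have := Fintype.ofFinite ι
  rw [Fintype.linearIndependent_iff]
  -- strong induction on the size of the support of a relation
  suffices H : ∀ (n : ℕ) (c : ι → Qb), (Finset.univ.filter fun i => c i ≠ 0).card = n →
      ∑ i, c i • f i = 0 → ∀ i, c i = 0 from fun c hc i => H _ c rfl hc i
  intro n
  induction n using Nat.strong_induction_on with
  | _ n ih =>
    intro c hn hc
    by_contra hne
    push Not at hne
    obtain ⟨i₀, hi₀⟩ := hne
    -- normalise `c i₀ = 1`
    set d : ι → Qb := fun i => c i / c i₀ with hd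
    have hd₀ : d i₀ = 1 := div_self hi₀
    have hdsupp : ∀ i, d i ≠ 0 ↔ c i ≠ 0 := fun i => by
      simp only [hd, ne_eq, div_eq_zero_iff, hi₀, or_false]
    have hdrel : ∑ i, d i • f i = 0 := by
      have : ∑ i, d i • f i = (c i₀)⁻¹ • ∑ i, c i • f i := by
        rw [Finset.smul_sum]
        refine Finset.sum_congr rfl fun i _ => ?_
        rw [smul_smul, hd]
        congr 1
        field_simp
      rw [this, hc, smul_zero]
    -- the conjugate relation
    have hconj : ∀ σ : GalQ, ∑ i, (σ (d i)) • f i = 0 := by
      intro σ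
      funext m
      have h1 := congrFun hdrel (act σ⁻¹ m)
      simp only [Finset.sum_apply, Pi.smul_apply, smul_eq_mul, Pi.zero_apply] at h1 ⊢
      have h2 := congrArg σ h1
      rw [map_sum, map_zero] at h2
      rw [← h2]
      refine Finset.sum_congr rfl fun i _ => ?_
      rw [map_mul, ← hf i σ (act σ⁻¹ m), hact, mul_inv_cancel, hone]
    -- the difference has smaller support
    have hfix : ∀ (σ : GalQ) (i : ι), σ (d i) = d i := by
      intro σ
      have hrel : ∑ i, (σ (d i) - d i) • f i = 0 := by
        have : ∑ i, (σ (d i) - d i) • f i = ∑ i, (σ (d i)) • f i - ∑ i, d i • f i := by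
          rw [← Finset.sum_sub_distrib]
          refine Finset.sum_congr rfl fun i _ => ?_
          rw [sub_smul]
        rw [this, hconj σ, hdrel, sub_zero]
      have hsub : (Finset.univ.filter fun i => σ (d i) - d i ≠ 0) ⊂
          (Finset.univ.filter fun i => c i ≠ 0) := by
        rw [Finset.ssubset_iff_of_subset]
        · refine ⟨i₀, by simp [hi₀], ?_⟩
          simp [hd₀]
        · intro i hi
          simp only [Finset.mem_filter, Finset.mem_univ, true_and] at hi ⊢
          rw [← hdsupp]
          intro h0
          apply hi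
          rw [h0, map_zero, sub_zero]
      have hlt := Finset.card_lt_card hsub
      rw [hn] at hlt
      intro i
      have := ih _ hlt (fun i => σ (d i) - d i) rfl hrel i
      exact sub_eq_zero.mp this
    -- so the `d i` are rational
    have hrat : ∀ i, ∃ q : ℚ, algebraMap ℚ Qb q = d i := fun i =>
      exists_rat_of_fixed (d i) fun σ => hfix σ i
    choose q hq using hrat
    have hqrel : ∑ i, q i • f i = 0 := by
      rw [← hdrel]
      refine Finset.sum_congr rfl fun i _ => ?_
      rw [← hq i]
      funext m
      simp [Algebra.smul_def]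
    have h0 := (Fintype.linearIndependent_iff.mp hQ) q hqrel i₀
    have h1 : d i₀ = 0 := by rw [← hq i₀, h0, map_zero]
    rw [hd₀] at h1
    exact one_ne_zero h1

/-- A `K`-subalgebra of `M → K`, `M` finite, which separates points is everything. -/
theorem subalgebra_eq_top_of_separates {K : Type*} [Field K] {M : Type*} [Finite M]
    (S : Subalgebra K (M → K))
    (hsep : ∀ m m' : M, m ≠ m' → ∃ f ∈ S, f m ≠ f m') : S = ⊤ := by
  classical
  have := Fintype.ofFinite M
  -- indicator functions
  have hind : ∀ m : M, (Pi.single m (1 : K) : M → K) ∈ S := by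
    intro m
    -- for each `m' ≠ m` a function in `S` which is `1` at `m` and `0` at `m'`
    have h1 : ∀ m' : M, ∃ g ∈ S, g m = 1 ∧ (m' ≠ m → g m' = 0) := by
      intro m'
      by_cases h : m' = m
      · exact ⟨1, S.one_mem, rfl, fun h' => absurd h h'⟩
      · obtain ⟨f, hfS, hf⟩ := hsep m m' (Ne.symm h)
        refine ⟨(f m - f m')⁻¹ • (f - algebraMap K (M → K) (f m')), ?_, ?_, ?_⟩
        · exact S.smul_mem (S.sub_mem hfS (S.algebraMap_mem _)) _
        · simp only [Pi.smul_apply, Pi.sub_apply, Pi.algebraMap_apply, Algebra.algebraMap_self,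
            RingHom.id_apply, smul_eq_mul]
          exact inv_mul_cancel₀ (sub_ne_zero.mpr hf)
        · intro _
          simp
    choose g hgS hg1 hg0 using h1
    have hprod : (Pi.single m (1 : K) : M → K) = ∏ m', g m' := by
      funext x
      rw [Finset.prod_apply]
      by_cases hx : x = m
      · subst hx
        rw [Pi.single_eq_same]
        exact (Finset.prod_eq_one (f := fun m' => g m' x) fun m' _ => hg1 m').symm
      · rw [Pi.single_eq_of_ne hx]
        exact (Finset.prod_eq_zero (f := fun m' => g m' x) (Finset.mem_univ x) (hg0 x hx)).symm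
    rw [hprod]
    exact S.prod_mem fun m' _ => hgS m'
  rw [eq_top_iff]
  intro f _
  have hf : f = ∑ m, f m • (Pi.single m (1 : K) : M → K) := by
    funext x
    simp [Finset.sum_apply, Pi.single_apply]
  rw [hf]
  exact S.sum_mem fun m _ => S.smul_mem (hind m) _

end Fermat.Agent.S19.H19

end
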