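/-
A3 / S19, helper19 — piece ORD, part 2: "good" algebra maps into function algebras.

An `R`-algebra map `φ : A → (X → K)` (`K` a field) is *good* if `A` has a finite `R`-basis whose
image is `K`-linearly independent.  Good maps are injective and the external product of two good
maps, `A ⊗[R] B → (X × Y → K)`, is good.  Mathlib only.
-/
import Mathlib

set_option autoImplicit false

noncomputable section

namespace Fermat.Agent.S19.H19

open scoped BigOperators TensorProduct

section Pullback

variable (R : Type) [CommSemiring R] (K : Type) [CommSemiring K] [Algebra R K]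

/-- Pull back functions along `f`, as an algebra map. -/
def pullback {X Y : Type} (f : X → Y) : (Y → K) →ₐ[R] (X → K) :=
  AlgHom.pi (fun x => Pi.evalAlgHom R (fun _ => K) (f x))

@[simp] theorem pullback_apply {X Y : Type} (f : X → Y) (g : Y → K) (x : X) :
    pullback R K f g x = g (f x) := rfl

end Pullback

section ProdMap

variable {R : Type} [CommRing R] {K : Type} [Field K] [Algebra R K]
variable {A B : Type} [Semiring A] [Algebra R A] [Semiring B] [Algebra R B]
variable {X Y : Type}

/-- External product of two algebra maps into function algebras. -/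
def prodMap (φ : A →ₐ[R] (X → K)) (ψ : B →ₐ[R] (Y → K)) : A ⊗[R] B →ₐ[R] (X × Y → K) :=
  Algebra.TensorProduct.productMap ((pullback R K Prod.fst).comp φ)
    ((pullback R K Prod.snd).comp ψ)

@[simp] theorem prodMap_tmul (φ : A →ₐ[R] (X → K)) (ψ : B →ₐ[R] (Y → K)) (a : A) (b : B)
    (p : X × Y) : prodMap φ ψ (a ⊗ₜ[R] b) p = φ a p.1 * ψ b p.2 := by
  simp [prodMap, Algebra.TensorProduct.productMap_apply_tmul]

/-- Products of two linearly independent families of functions are linearly independent. -/
theorem linearIndependent_mul {ι κ : Type} [Finite ι] [Finite κ] (f : ι → X → K)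
    (g : κ → Y → K) (hf : LinearIndependent K f) (hg : LinearIndependent K g) :
    LinearIndependent K (fun (p : ι × κ) => fun (q : X × Y) => f p.1 q.1 * g p.2 q.2) := by
  classical
  have := Fintype.ofFinite ι
  have := Fintype.ofFinite κ
  rw [Fintype.linearIndependent_iff] at hf hg ⊢
  intro c hc
  have h1 : ∀ (y : Y) (i : ι), ∑ j, c (i, j) * g j y = 0 := by
    intro y
    apply hf (fun i => ∑ j, c (i, j) * g j y)
    funext x
    have := congrFun hc (x, y)
    simp only [Finset.sum_apply, Pi.smul_apply, smul_eq_mul, Pi.zero_apply] at this ⊢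
    rw [← this, Fintype.sum_prod_type]
    refine Finset.sum_congr rfl fun i _ => ?_
    rw [Finset.sum_mul]
    refine Finset.sum_congr rfl fun j _ => ?_
    ring
  intro p
  obtain ⟨i, j⟩ := p
  apply hg (fun j => c (i, j))
  funext y
  have := h1 y i
  simp only [Finset.sum_apply, Pi.smul_apply, smul_eq_mul, Pi.zero_apply]
  exact this

end ProdMap

section Good

variable {R : Type} [CommRing R] {K : Type} [Field K] [Algebra R K]
variable {A B : Type} [Semiring A] [Algebra R A] [Semiring B] [Algebra R B]
variable {X Y : Type}

/-- `φ : A → (X → K)` is good if some finite `R`-basis of `A` has `K`-independent image. -/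
def Good (φ : A →ₐ[R] (X → K)) : Prop :=
  ∃ (ι : Type) (_ : Finite ι) (b : Module.Basis ι R A), LinearIndependent K (fun i => φ (b i))

theorem Good.injective (hRK : Function.Injective (algebraMap R K)) {φ : A →ₐ[R] (X → K)}
    (h : Good φ) : Function.Injective φ := by
  classical
  obtain ⟨ι, hι, b, hb⟩ := h
  have := Fintype.ofFinite ι
  have key : ∀ x : A, φ x = ∑ i, algebraMap R K (b.repr x i) • φ (b i) := by
    intro x
    conv_lhs => rw [← b.sum_repr x]
    rw [map_sum]
    refine Finset.sum_congr rfl fun i _ => ?_
    rw [map_smul]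
    funext m
    simp [Algebra.smul_def]
  intro x y hxy
  have h2 : ∑ i, (algebraMap R K (b.repr x i) - algebraMap R K (b.repr y i)) • φ (b i) = 0 := by
    simp only [sub_smul, Finset.sum_sub_distrib]
    rw [← key x, ← key y, hxy, sub_self]
  have h3 := (Fintype.linearIndependent_iff.mp hb) _ h2
  apply b.ext_elem
  intro i
  exact hRK (sub_eq_zero.mp (h3 i))

theorem Good.prod {φ : A →ₐ[R] (X → K)} {ψ : B →ₐ[R] (Y → K)} (hφ : Good φ) (hψ : Good ψ) :
    Good (prodMap φ ψ) := by
  obtain ⟨ι, hι, b, hb⟩ := hφ
  obtain ⟨κ, hκ, c, hc⟩ := hψ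
  refine ⟨ι × κ, inferInstance, b.tensorProduct c, ?_⟩
  have := linearIndependent_mul _ _ hb hc
  convert this using 1
  funext p q
  rw [Module.Basis.tensorProduct_apply', prodMap_tmul]

theorem Good.finite {φ : A →ₐ[R] (X → K)} (h : Good φ) : Module.Finite R A := by
  obtain ⟨ι, hι, b, -⟩ := h
  exact Module.Finite.of_basis b

theorem Good.free {φ : A →ₐ[R] (X → K)} (h : Good φ) : Module.Free R A := by
  obtain ⟨ι, hι, b, -⟩ := h
  exact Module.Free.of_basis b

end Good

end Fermat.Agent.S19.H19

end
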