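/-
A3 / S19, helper19 — piece ORD, part 3: the Hopf algebra structure on an order of functions.

`M` an abelian group, `K` a field, `R → K` injective, `H ⊂ (M → K)` an `R`-subalgebra which is
"good" (finite free with `K`-independent basis) and closed under `f ↦ f(s+t)` (with values in the
image of `H ⊗ H`), `f ↦ f 0` (with values in `R`) and `f ↦ f(-t)`.  Then `H` is a commutative,
cocommutative Hopf algebra over `R`.  Mathlib only.
-/
import Fermat.Agent.S19.H19.Good

set_option autoImplicit false
set_option linter.unusedSectionVars false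
set_option linter.style.haveILetI false

noncomputable section

namespace Fermat.Agent.S19.H19

open scoped BigOperators TensorProduct

variable {R : Type} [CommRing R] {K : Type} [Field K] [Algebra R K]
variable {M : Type} [AddCommGroup M]

/-- An `R`-subalgebra of functions on an abelian group which is a "Hopf order". -/
structure IsOrder (H : Subalgebra R (M → K)) : Prop where
  alg_inj : Function.Injective (algebraMap R K)
  good : Good H.val
  comul_mem : ∀ f ∈ H, (fun p : M × M => f (p.1 + p.2)) ∈ (prodMap H.val H.val).range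
  counit_mem : ∀ f ∈ H, f 0 ∈ (Algebra.ofId R K).range
  anti_mem : ∀ f ∈ H, (fun m => f (-m)) ∈ H

namespace IsOrder

variable {H : Subalgebra R (M → K)} (hH : IsOrder H)

/-- Evaluation `H ⊗ H → (M × M → K)`. -/
abbrev E₂ (H : Subalgebra R (M → K)) : H ⊗[R] H →ₐ[R] (M × M → K) := prodMap H.val H.val

/-- Evaluation `H ⊗ (H ⊗ H) → (M × (M × M) → K)`. -/
abbrev E₃ (H : Subalgebra R (M → K)) : H ⊗[R] (H ⊗[R] H) →ₐ[R] (M × (M × M) → K) :=
  prodMap H.val (E₂ H)

include hH in
theorem E₂_injective : Function.Injective (E₂ H) := (hH.good.prod hH.good).injective hH.alg_inj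

include hH in
theorem E₃_injective : Function.Injective (E₃ H) :=
  (hH.good.prod (hH.good.prod hH.good)).injective hH.alg_inj

/-- `f ↦ ((s,t) ↦ f (s+t))`. -/
def addFun (H : Subalgebra R (M → K)) : H →ₐ[R] (M × M → K) :=
  (pullback R K (fun p : M × M => p.1 + p.2)).comp H.val

/-- The comultiplication. -/
def comul : H →ₐ[R] H ⊗[R] H :=
  ((AlgEquiv.ofInjective (E₂ H) hH.E₂_injective).symm : (E₂ H).range →ₐ[R] H ⊗[R] H).comp
    ((addFun H).codRestrict (E₂ H).range (fun f => hH.comul_mem f f.2))

theorem E₂_comul (h : H) (p : M × M) : E₂ H (hH.comul h) p = (h : M → K) (p.1 + p.2) := by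
  have h1 : E₂ H (hH.comul h) = ((addFun H).codRestrict (E₂ H).range
      (fun f => hH.comul_mem f f.2) h : M × M → K) := by
    have := (AlgEquiv.ofInjective (E₂ H) hH.E₂_injective).apply_symm_apply
      ((addFun H).codRestrict (E₂ H).range (fun f => hH.comul_mem f f.2) h)
    exact congrArg Subtype.val this
  rw [h1]
  rfl

/-- The counit. -/
def counit : H →ₐ[R] R :=
  ((AlgEquiv.ofInjective (Algebra.ofId R K) hH.alg_inj).symm :
      (Algebra.ofId R K).range →ₐ[R] R).comp
    (((Pi.evalAlgHom R (fun _ : M => K) 0).comp H.val).codRestrict (Algebra.ofId R K).range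
      (fun f => hH.counit_mem f f.2))

theorem algebraMap_counit (h : H) : algebraMap R K (hH.counit h) = (h : M → K) 0 := by
  have := (AlgEquiv.ofInjective (Algebra.ofId R K) hH.alg_inj).apply_symm_apply
      (((Pi.evalAlgHom R (fun _ : M => K) 0).comp H.val).codRestrict (Algebra.ofId R K).range
      (fun f => hH.counit_mem f f.2) h)
  exact congrArg Subtype.val this

/-- The antipode. -/
def antipode : H →ₐ[R] H :=
  ((pullback R K (fun m : M => -m)).comp H.val).codRestrict H (fun f => hH.anti_mem f f.2)

theorem antipode_apply (h : H) (m : M) : (hH.antipode h : M → K) m = (h : M → K) (-m) := rfl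

/-! ### Naturality lemmas -/

theorem E₂_tmul (a b : H) (p : M × M) :
    E₂ H (a ⊗ₜ[R] b) p = (a : M → K) p.1 * (b : M → K) p.2 := by
  simp [E₂]

theorem E₃_tmul (a : H) (y : H ⊗[R] H) (p : M × (M × M)) :
    E₃ H (a ⊗ₜ[R] y) p = (a : M → K) p.1 * E₂ H y p.2 := by
  simp [E₃]

theorem E₃_assoc_tmul (y : H ⊗[R] H) (b : H) (p : M × (M × M)) :
    E₃ H (Algebra.TensorProduct.assoc R R R H H H (y ⊗ₜ[R] b)) p =
      E₂ H y (p.1, p.2.1) * (b : M → K) p.2.2 := by
  induction y using TensorProduct.induction_on with
  | zero => simp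
  | tmul a a' =>
    rw [Algebra.TensorProduct.assoc_tmul, E₃_tmul, E₂_tmul, E₂_tmul, mul_assoc]
  | add x y hx hy =>
    rw [TensorProduct.add_tmul, map_add, map_add, map_add, Pi.add_apply, Pi.add_apply, hx, hy,
      add_mul]

theorem E₃_assoc_map (x : H ⊗[R] H) (p : M × (M × M)) :
    E₃ H (Algebra.TensorProduct.assoc R R R H H H
        (Algebra.TensorProduct.map hH.comul (AlgHom.id R H) x)) p =
      E₂ H x (p.1 + p.2.1, p.2.2) := by
  induction x using TensorProduct.induction_on with
  | zero => simp
  | tmul a b =>
    rw [Algebra.TensorProduct.map_tmul, E₃_assoc_tmul, hH.E₂_comul, E₂_tmul]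
    rfl
  | add x y hx hy =>
    rw [map_add, map_add, map_add, map_add, Pi.add_apply, Pi.add_apply, hx, hy]

theorem E₃_map (x : H ⊗[R] H) (p : M × (M × M)) :
    E₃ H (Algebra.TensorProduct.map (AlgHom.id R H) hH.comul x) p =
      E₂ H x (p.1, p.2.1 + p.2.2) := by
  induction x using TensorProduct.induction_on with
  | zero => simp
  | tmul a b =>
    rw [Algebra.TensorProduct.map_tmul, E₃_tmul, hH.E₂_comul, E₂_tmul]
    rfl
  | add x y hx hy =>
    rw [map_add, map_add, map_add, Pi.add_apply, Pi.add_apply, hx, hy]

theorem lid_map (x : H ⊗[R] H) (m : M) :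
    ((Algebra.TensorProduct.lid R H
        (Algebra.TensorProduct.map hH.counit (AlgHom.id R H) x) : H) : M → K) m =
      E₂ H x (0, m) := by
  induction x using TensorProduct.induction_on with
  | zero => simp
  | tmul a b =>
    rw [Algebra.TensorProduct.map_tmul, Algebra.TensorProduct.lid_tmul, E₂_tmul,
      ← hH.algebraMap_counit]
    simp [Algebra.smul_def]
  | add x y hx hy =>
    rw [map_add, map_add, map_add]
    simp only [Subalgebra.coe_add, Pi.add_apply]
    rw [hx, hy]

theorem rid_map (x : H ⊗[R] H) (m : M) :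
    ((Algebra.TensorProduct.rid R R H
        (Algebra.TensorProduct.map (AlgHom.id R H) hH.counit x) : H) : M → K) m =
      E₂ H x (m, 0) := by
  induction x using TensorProduct.induction_on with
  | zero => simp
  | tmul a b =>
    rw [Algebra.TensorProduct.map_tmul, Algebra.TensorProduct.rid_tmul, E₂_tmul,
      ← hH.algebraMap_counit]
    simp [Algebra.smul_def, mul_comm]
  | add x y hx hy =>
    rw [map_add, map_add, map_add]
    simp only [Subalgebra.coe_add, Pi.add_apply]
    rw [hx, hy]

theorem E₂_comm (x : H ⊗[R] H) (p : M × M) :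
    E₂ H (TensorProduct.comm R H H x) p = E₂ H x (p.2, p.1) := by
  induction x using TensorProduct.induction_on with
  | zero => simp
  | tmul a b =>
    rw [TensorProduct.comm_tmul, E₂_tmul, E₂_tmul, mul_comm]
  | add x y hx hy =>
    rw [map_add, map_add, map_add, Pi.add_apply, Pi.add_apply, hx, hy]

theorem lift_tmul_apply (f g : H →ₐ[R] H) (x : H ⊗[R] H) (m : M) :
    ((Algebra.TensorProduct.lift f g (fun _ _ => Commute.all _ _) x : H) : M → K) m =
      E₂ H (Algebra.TensorProduct.map f g x) (m, m) := by
  induction x using TensorProduct.induction_on with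
  | zero => simp
  | tmul a b =>
    rw [Algebra.TensorProduct.lift_tmul, Algebra.TensorProduct.map_tmul, E₂_tmul]
    rfl
  | add x y hx hy =>
    rw [map_add, map_add, map_add]
    simp only [Subalgebra.coe_add, Pi.add_apply]
    rw [hx, hy]

theorem E₂_map_antipode_id (x : H ⊗[R] H) (p : M × M) :
    E₂ H (Algebra.TensorProduct.map hH.antipode (AlgHom.id R H) x) p = E₂ H x (-p.1, p.2) := by
  induction x using TensorProduct.induction_on with
  | zero => simp
  | tmul a b =>
    rw [Algebra.TensorProduct.map_tmul, E₂_tmul, E₂_tmul]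
    rfl
  | add x y hx hy =>
    rw [map_add, map_add, map_add, Pi.add_apply, Pi.add_apply, hx, hy]

theorem E₂_map_id_antipode (x : H ⊗[R] H) (p : M × M) :
    E₂ H (Algebra.TensorProduct.map (AlgHom.id R H) hH.antipode x) p = E₂ H x (p.1, -p.2) := by
  induction x using TensorProduct.induction_on with
  | zero => simp
  | tmul a b =>
    rw [Algebra.TensorProduct.map_tmul, E₂_tmul, E₂_tmul]
    rfl
  | add x y hx hy =>
    rw [map_add, map_add, map_add, Pi.add_apply, Pi.add_apply, hx, hy]

/-! ### The structures -/

/-- The bialgebra structure on an order. -/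
@[reducible] def bialgebra : Bialgebra R H :=
  Bialgebra.ofAlgHom hH.comul hH.counit
    (by
      refine AlgHom.ext fun h => hH.E₃_injective (funext fun p => ?_)
      refine (hH.E₃_assoc_map (hH.comul h) p).trans ?_
      refine Eq.trans ?_ (hH.E₃_map (hH.comul h) p).symm
      rw [hH.E₂_comul, hH.E₂_comul, add_assoc])
    (by
      refine AlgHom.ext fun h => (Algebra.TensorProduct.lid R H).injective
        (Subtype.ext (funext fun m => ?_))
      have h1 : (Algebra.TensorProduct.lid R H) ((Algebra.TensorProduct.lid R H).symm h) = h :=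
        AlgEquiv.apply_symm_apply _ _
      refine (hH.lid_map (hH.comul h) m).trans ?_
      refine Eq.trans ?_ (congrArg (fun x : H => (x : M → K) m) h1).symm
      rw [hH.E₂_comul]
      simp only [zero_add])
    (by
      refine AlgHom.ext fun h => (Algebra.TensorProduct.rid R R H).injective
        (Subtype.ext (funext fun m => ?_))
      have h1 : (Algebra.TensorProduct.rid R R H) ((Algebra.TensorProduct.rid R R H).symm h) = h :=
        AlgEquiv.apply_symm_apply _ _
      refine (hH.rid_map (hH.comul h) m).trans ?_
      refine Eq.trans ?_ (congrArg (fun x : H => (x : M → K) m) h1).symm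
      rw [hH.E₂_comul]
      simp only [add_zero])

theorem bialgebra_comul (h : H) :
    letI := hH.bialgebra
    Coalgebra.comul (R := R) h = hH.comul h := rfl

theorem bialgebra_counit (h : H) :
    letI := hH.bialgebra
    Coalgebra.counit (R := R) h = hH.counit h := rfl

/-- The Hopf algebra structure on an order. -/
@[reducible] def hopfAlgebra : HopfAlgebra R H :=
  letI := hH.bialgebra
  HopfAlgebra.ofAlgHom hH.antipode
    (by
      refine AlgHom.ext fun h => Subtype.ext (funext fun m => ?_)
      simp only [AlgHom.comp_apply, Bialgebra.comulAlgHom_apply, Bialgebra.counitAlgHom_apply]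
      rw [lift_tmul_apply, hH.bialgebra_comul, hH.bialgebra_counit, hH.E₂_map_antipode_id,
        hH.E₂_comul]
      simp only [neg_add_cancel]
      rw [← hH.algebraMap_counit]
      rfl)
    (by
      refine AlgHom.ext fun h => Subtype.ext (funext fun m => ?_)
      simp only [AlgHom.comp_apply, Bialgebra.comulAlgHom_apply, Bialgebra.counitAlgHom_apply]
      rw [lift_tmul_apply, hH.bialgebra_comul, hH.bialgebra_counit, hH.E₂_map_id_antipode,
        hH.E₂_comul]
      simp only [add_neg_cancel]
      rw [← hH.algebraMap_counit]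
      rfl)

theorem isCocomm :
    letI := hH.bialgebra
    Coalgebra.IsCocomm R H := by
  let _ := hH.bialgebra
  refine ⟨LinearMap.ext fun h => hH.E₂_injective (funext fun p => ?_)⟩
  simp only [LinearMap.comp_apply, LinearEquiv.coe_coe]
  rw [hH.bialgebra_comul, E₂_comm, hH.E₂_comul, hH.E₂_comul, add_comm]

end IsOrder

end Fermat.Agent.S19.H19

end
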