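/-
A3 / S19, helper19 — piece ORD, part 4: the points of an order of functions.

For an order `H ⊂ (M → K)` (`M` finite) separating points, the `R`-algebra maps `H → K` are
exactly the evaluations at the points of `M`, convolution is addition, and semilinear twists
correspond to the action on `M`.  Final packaging `exists_hopf_of_isOrder`.  Mathlib only.
-/
import Fermat.Agent.S19.H19.Indep
import Fermat.Agent.S19.H19.Order

set_option autoImplicit false
set_option linter.unusedSectionVars false
set_option linter.style.haveILetI false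

noncomputable section

namespace Fermat.Agent.S19.H19

open scoped BigOperators TensorProduct

variable {R : Type} [CommRing R] {K : Type} [Field K] [Algebra R K]
variable {M : Type} [AddCommGroup M]

namespace IsOrder

variable {H : Subalgebra R (M → K)} (hH : IsOrder H)

/-- Evaluation at a point, as an algebra map `H → K`. -/
def evPt (H : Subalgebra R (M → K)) (m : M) : H →ₐ[R] K :=
  (Pi.evalAlgHom R (fun _ : M => K) m).comp H.val

@[simp] theorem evPt_apply (m : M) (h : H) : evPt H m h = (h : M → K) m := rfl

theorem evPt_injective (hsep : ∀ m m' : M, m ≠ m' → ∃ f ∈ H, f m ≠ f m') :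
    Function.Injective (evPt H) := by
  intro m m' hmm
  by_contra hne
  obtain ⟨f, hf, hfm⟩ := hsep m m' hne
  exact hfm (congrArg (fun χ : H →ₐ[R] K => χ ⟨f, hf⟩) hmm)

include hH in
/-- The `K`-span of a separating order is everything. -/
theorem span_eq_top [Finite M] (hsep : ∀ m m' : M, m ≠ m' → ∃ f ∈ H, f m ≠ f m') :
    Submodule.span K (H : Set (M → K)) = ⊤ := by
  have h1 : Algebra.adjoin K (H : Set (M → K)) = ⊤ := by
    apply subalgebra_eq_top_of_separates
    intro m m' hne
    obtain ⟨f, hf, hfm⟩ := hsep m m' hne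
    exact ⟨f, Algebra.subset_adjoin hf, hfm⟩
  have h2 := Algebra.adjoin_eq_span K (H : Set (M → K))
  have h3 : Submonoid.closure (H : Set (M → K)) = H.toSubmonoid :=
    Submonoid.closure_eq H.toSubmonoid
  rw [h3, h1] at h2
  rw [eq_top_iff]
  intro x _
  have : x ∈ Subalgebra.toSubmodule (⊤ : Subalgebra K (M → K)) := by simp
  rw [h2] at this
  exact this

include hH in
theorem evPt_surjective [Finite M] (hsep : ∀ m m' : M, m ≠ m' → ∃ f ∈ H, f m ≠ f m') :
    Function.Surjective (evPt H) := by
  classical
  have := Fintype.ofFinite M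
  intro χ
  obtain ⟨ι, hι, b, hb⟩ := hH.good
  have := Fintype.ofFinite ι
  -- expansion of elements of `H`
  have key : ∀ x : H, (x : M → K) = ∑ i, algebraMap R K (b.repr x i) • ((b i : H) : M → K) := by
    intro x
    change H.val x = _
    conv_lhs => rw [← b.sum_repr x]
    rw [map_sum]
    refine Finset.sum_congr rfl fun i _ => ?_
    rw [map_smul]
    funext m
    simp [Algebra.smul_def]
  have keyχ : ∀ x : H, χ x = ∑ i, algebraMap R K (b.repr x i) * χ (b i) := by
    intro x
    conv_lhs => rw [← b.sum_repr x]
    rw [map_sum]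
    refine Finset.sum_congr rfl fun i _ => ?_
    rw [map_smul, Algebra.smul_def]
  have hspan : ⊤ ≤ Submodule.span K (Set.range fun i => H.val (b i)) := by
    rw [← hH.span_eq_top hsep]
    apply Submodule.span_le.mpr
    intro x hx
    have := key ⟨x, hx⟩
    simp only at this
    rw [SetLike.mem_coe, this]
    exact Submodule.sum_mem _ fun i _ =>
      Submodule.smul_mem _ _ (Submodule.subset_span ⟨i, rfl⟩)
  let B : Module.Basis ι K (M → K) := Module.Basis.mk hb hspan
  have hB : ∀ i, B i = ((b i : H) : M → K) := fun i => by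
    simp [B]
  let χ' : (M → K) →ₗ[K] K := B.constr K (fun i => χ (b i))
  have hχ'B : ∀ i, χ' (B i) = χ (b i) := fun i => by
    simp [χ']
  have hχ' : ∀ x : H, χ' (x : M → K) = χ x := by
    intro x
    rw [key x, keyχ x, map_sum]
    refine Finset.sum_congr rfl fun i _ => ?_
    rw [map_smul, ← hB, hχ'B, smul_eq_mul]
  -- multiplicativity
  have hmul1 : ∀ j, χ' ∘ₗ LinearMap.mulRight K (B j) = LinearMap.mulRight K (χ' (B j)) ∘ₗ χ' := by
    intro j
    apply B.ext
    intro i
    simp only [LinearMap.comp_apply, LinearMap.mulRight_apply]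
    rw [hB, hB]
    have : ((b i : H) : M → K) * ((b j : H) : M → K) = ((b i * b j : H) : M → K) := rfl
    rw [this, hχ', hχ', hχ', map_mul]
  have hmul2 : ∀ f : M → K, χ' ∘ₗ LinearMap.mulLeft K f = LinearMap.mulLeft K (χ' f) ∘ₗ χ' := by
    intro f
    apply B.ext
    intro j
    simp only [LinearMap.comp_apply, LinearMap.mulLeft_apply]
    have := congrArg (fun L : (M → K) →ₗ[K] K => L f) (hmul1 j)
    simpa only [LinearMap.comp_apply, LinearMap.mulRight_apply] using this
  have hmul : ∀ f g : M → K, χ' (f * g) = χ' f * χ' g := by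
    intro f g
    have := congrArg (fun L : (M → K) →ₗ[K] K => L g) (hmul2 f)
    simpa only [LinearMap.comp_apply, LinearMap.mulLeft_apply] using this
  have hone : χ' 1 = 1 := by
    have := hχ' 1
    rw [map_one] at this
    exact this
  -- find the point
  have hsum : ∑ m : M, χ' (Pi.single m (1 : K)) = 1 := by
    have h1 : (∑ m : M, Pi.single m (1 : K)) = (1 : M → K) := by
      funext x
      simp [Finset.sum_apply, Pi.single_apply]
    rw [← map_sum, h1, hone]
  have hex : ∃ m : M, χ' (Pi.single m (1 : K)) ≠ 0 := by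
    by_contra hcon
    push Not at hcon
    rw [Finset.sum_eq_zero fun m _ => hcon m] at hsum
    exact zero_ne_one hsum
  obtain ⟨m, hm⟩ := hex
  refine ⟨m, ?_⟩
  apply AlgHom.ext
  intro x
  rw [evPt_apply, ← hχ']
  have h1 : (x : M → K) * Pi.single m (1 : K) = ((x : M → K) m) • Pi.single m (1 : K) := by
    funext y
    by_cases hy : y = m
    · subst hy; simp
    · simp [Pi.single_eq_of_ne hy]
  have h2 := hmul (x : M → K) (Pi.single m (1 : K))
  rw [h1, map_smul, smul_eq_mul] at h2
  exact (mul_right_cancel₀ hm h2)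

theorem lift_evPt (s t : M) (x : H ⊗[R] H) :
    Algebra.TensorProduct.lift (evPt H s) (evPt H t) (fun _ _ => Commute.all _ _) x =
      E₂ H x (s, t) := by
  induction x using TensorProduct.induction_on with
  | zero => simp
  | tmul a b =>
    rw [Algebra.TensorProduct.lift_tmul, E₂_tmul]
    rfl
  | add x y hx hy =>
    rw [map_add, map_add, Pi.add_apply, hx, hy]

theorem evPt_add (s t : M) :
    letI := hH.hopfAlgebra
    (WithConv.toConv (evPt H s) * WithConv.toConv (evPt H t) : WithConv (H →ₐ[R] K)) =
      WithConv.toConv (evPt H (s + t)) := by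
  letI := hH.hopfAlgebra
  apply WithConv.ext
  apply AlgHom.ext
  intro h
  have := AlgHom.convMul_apply (WithConv.toConv (evPt H s)) (WithConv.toConv (evPt H t)) h
  refine this.trans ?_
  rw [lift_evPt]
  exact hH.E₂_comul h (s, t)

end IsOrder

/-- **Piece ORD.**  A separating Hopf order of functions on a finite abelian group `M` is a
finite flat commutative cocommutative Hopf algebra over `R` whose `K`-points are `M`. -/
theorem exists_hopf_of_isOrder [Finite M] {H : Subalgebra R (M → K)} (hH : IsOrder H)
    (hsep : ∀ m m' : M, m ≠ m' → ∃ f ∈ H, f m ≠ f m') :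
    ∃ (H' : Type) (_ : CommRing H') (_ : HopfAlgebra R H'),
      Module.Finite R H' ∧ Module.Flat R H' ∧ Coalgebra.IsCocomm R H' ∧
      ∃ e : WithConv (H' →ₐ[R] K) ≃ M, (∀ f g, e (f * g) = e f + e g) ∧
        ∀ (τ : K → K) (a : M → M), (∀ h ∈ H, ∀ m, h (a m) = τ (h m)) →
          ∀ f g : WithConv (H' →ₐ[R] K), (∀ h : H', g h = τ (f h)) → e g = a (e f) := by
  have hbij : Function.Bijective (fun m : M => WithConv.toConv (IsOrder.evPt H m)) := by
    constructor
    · intro m m' hmm
      exact IsOrder.evPt_injective hsep (congrArg WithConv.ofConv hmm)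
    · intro χ
      obtain ⟨m, hm⟩ := hH.evPt_surjective hsep χ.ofConv
      exact ⟨m, by simp only [hm, WithConv.toConv_ofConv]⟩
  refine ⟨H, H.toCommRing, hH.hopfAlgebra, hH.good.finite, ?_, hH.isCocomm,
    (Equiv.ofBijective _ hbij).symm, ?_, ?_⟩
  · haveI := hH.good.free
    infer_instance
  · intro f g
    rw [Equiv.symm_apply_eq]
    have h1 := hH.evPt_add ((Equiv.ofBijective _ hbij).symm f) ((Equiv.ofBijective _ hbij).symm g)
    have hf : WithConv.toConv (IsOrder.evPt H ((Equiv.ofBijective _ hbij).symm f)) = f :=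
      (Equiv.ofBijective _ hbij).apply_symm_apply f
    have hg : WithConv.toConv (IsOrder.evPt H ((Equiv.ofBijective _ hbij).symm g)) = g :=
      (Equiv.ofBijective _ hbij).apply_symm_apply g
    rw [hf, hg] at h1
    exact h1
  · intro τ a ha f g hfg
    rw [Equiv.symm_apply_eq]
    have hf : WithConv.toConv (IsOrder.evPt H ((Equiv.ofBijective _ hbij).symm f)) = f :=
      (Equiv.ofBijective _ hbij).apply_symm_apply f
    apply WithConv.ext
    apply AlgHom.ext
    intro h
    have h1 : g.ofConv h = τ (f.ofConv h) := hfg h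
    rw [h1]
    have h2 : f.ofConv h = (h : M → K) ((Equiv.ofBijective _ hbij).symm f) := by
      conv_lhs => rw [← hf]
      rfl
    rw [h2, ← ha h h.2]
    rfl

end Fermat.Agent.S19.H19

end
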