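/-
A3 / S19, helper19 — piece ORD, part 6: Galois-equivariant orders over a subring of `ℚ`.

`R ⊂ ℚ` a principal ideal ring which is integrally closed in `ℚ`; `M` a finite abelian group with
an action of `G_ℚ` fixing `0`; `H ⊂ (M → ℚ̄)` a finitely generated `R`-subalgebra of equivariant
functions, separating points, with `f(s+t) ∈ im (H ⊗ H)`.  Then `H` is a finite flat commutative
cocommutative Hopf algebra over `R` with `H(ℚ̄) = M`, Galois-equivariantly.  Mathlib only.
-/
import Fermat.Agent.S19.H19.Points
import Fermat.Agent.S19.H19.Anti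

set_option autoImplicit false
set_option linter.unusedSectionVars false
set_option linter.style.haveILetI false

noncomputable section

namespace Fermat.Agent.S19.H19

open scoped BigOperators TensorProduct

variable (R : Subring ℚ)

theorem algebraMap_subring_injective : Function.Injective (algebraMap R Qb) := by
  have h1 : (algebraMap R Qb : R → Qb) = (algebraMap ℚ Qb) ∘ (Subtype.val : R → ℚ) := by
    funext x
    rfl
  rw [h1]
  exact (algebraMap ℚ Qb).injective.comp Subtype.val_injective

theorem mem_range_of_fixed_of_isIntegral (hR : ∀ q : ℚ, IsIntegral R q → q ∈ R) (x : Qb)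
    (hfix : ∀ σ : GalQ, σ x = x) (hint : IsIntegral R x) : x ∈ (Algebra.ofId R Qb).range := by
  obtain ⟨q, hq⟩ := exists_rat_of_fixed x hfix
  have h1 : IsIntegral R q := by
    rw [← hq] at hint
    exact (isIntegral_algebraMap_iff (algebraMap ℚ Qb).injective).mp hint
  exact ⟨⟨q, hR q h1⟩, hq⟩

variable {M : Type}

section Good

variable {act : GalQ → M → M}

theorem isTorsionFree_subalgebra (H : Subalgebra R (M → Qb)) : Module.IsTorsionFree R H := by
  rw [Module.isTorsionFree_iff_smul_eq_zero]
  intro r f hrf
  by_cases hr : r = 0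
  · exact Or.inl hr
  · right
    apply Subtype.ext
    funext m
    have h1 : (r • (f : M → Qb)) m = 0 := by
      have := congrArg (fun g : H => (g : M → Qb) m) hrf
      exact this
    rw [Pi.smul_apply, Algebra.smul_def, mul_eq_zero] at h1
    rcases h1 with h1 | h1
    · exact absurd (algebraMap_subring_injective R (h1.trans (map_zero _).symm)) hr
    · exact h1

theorem good_of_equivariant [IsPrincipalIdealRing R]
    (hone : ∀ m, act 1 m = m) (hact : ∀ σ τ m, act σ (act τ m) = act (σ * τ) m)
    (H : Subalgebra R (M → Qb)) (hequiv : ∀ f ∈ H, IsEquivariant act f)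
    (hfg : (Subalgebra.toSubmodule H).FG) : Good H.val := by
  haveI : Module.Finite R H := Module.Finite.iff_fg.mpr hfg
  haveI : Module.IsTorsionFree R H := isTorsionFree_subalgebra R H
  haveI : Module.Free R H := Module.free_of_finite_type_torsion_free'
  let b := Module.Free.chooseBasis R H
  refine ⟨Module.Free.ChooseBasisIndex R H, inferInstance, b, ?_⟩
  apply linearIndependent_of_equivariant hone hact
  · intro i
    exact hequiv _ (b i).2
  · -- `ℚ`-linear independence
    have h1 : LinearIndependent R (fun i => H.val (b i)) :=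
      b.linearIndependent.map' H.val.toLinearMap (LinearMap.ker_eq_bot.mpr Subtype.val_injective)
    have h2 : LinearIndependent ℤ (fun i => H.val (b i)) := by
      refine LinearIndependent.restrict_scalars (K := R) ?_ h1
      intro x y hxy
      simp only [zsmul_eq_mul, mul_one] at hxy
      exact_mod_cast hxy
    exact LinearIndependent.localization ℚ (nonZeroDivisors ℤ) h2

end Good

section Main

variable [AddCommGroup M] [Finite M] {act : GalQ → M → M}

theorem counit_mem_of_equivariant (hR : ∀ q : ℚ, IsIntegral R q → q ∈ R)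
    (hzero : ∀ σ, act σ 0 = 0)
    (H : Subalgebra R (M → Qb)) (hequiv : ∀ f ∈ H, IsEquivariant act f)
    (hfg : (Subalgebra.toSubmodule H).FG) :
    ∀ f ∈ H, f 0 ∈ (Algebra.ofId R Qb).range := by
  intro f hf
  haveI : Module.Finite R H := Module.Finite.iff_fg.mpr hfg
  apply mem_range_of_fixed_of_isIntegral R hR
  · intro σ
    rw [← hequiv f hf σ 0, hzero]
  · have h1 : IsIntegral R (⟨f, hf⟩ : H) := Algebra.IsIntegral.isIntegral _
    exact h1.map (IsOrder.evPt H 0)

/-- A finitely generated, equivariant subalgebra closed under `f ↦ f(s+t)` is an order. -/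
theorem isOrder_of_equivariant [IsPrincipalIdealRing R]
    (hR : ∀ q : ℚ, IsIntegral R q → q ∈ R)
    (hone : ∀ m, act 1 m = m) (hact : ∀ σ τ m, act σ (act τ m) = act (σ * τ) m)
    (hzero : ∀ σ, act σ 0 = 0)
    (H : Subalgebra R (M → Qb)) (hequiv : ∀ f ∈ H, IsEquivariant act f)
    (hfg : (Subalgebra.toSubmodule H).FG)
    (hcomul : ∀ f ∈ H, (fun p : M × M => f (p.1 + p.2)) ∈ (prodMap H.val H.val).range) :
    IsOrder H where
  alg_inj := algebraMap_subring_injective R
  good := good_of_equivariant R hone hact H hequiv hfg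
  comul_mem := hcomul
  counit_mem := counit_mem_of_equivariant R hR hzero H hequiv hfg
  anti_mem := neg_mem_of_comul_mem H hcomul (counit_mem_of_equivariant R hR hzero H hequiv hfg)

/-- **Piece ORD, Galois form.** -/
theorem exists_hopf_of_equivariant_order [IsPrincipalIdealRing R]
    (hR : ∀ q : ℚ, IsIntegral R q → q ∈ R)
    (hone : ∀ m, act 1 m = m) (hact : ∀ σ τ m, act σ (act τ m) = act (σ * τ) m)
    (hzero : ∀ σ, act σ 0 = 0)
    (H : Subalgebra R (M → Qb)) (hequiv : ∀ f ∈ H, IsEquivariant act f)
    (hfg : (Subalgebra.toSubmodule H).FG)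
    (hsep : ∀ m m' : M, m ≠ m' → ∃ f ∈ H, f m ≠ f m')
    (hcomul : ∀ f ∈ H, (fun p : M × M => f (p.1 + p.2)) ∈ (prodMap H.val H.val).range) :
    ∃ (H' : Type) (_ : CommRing H') (_ : HopfAlgebra R H'),
      Module.Finite R H' ∧ Module.Flat R H' ∧ Coalgebra.IsCocomm R H' ∧
      ∃ e : WithConv (H' →ₐ[R] Qb) ≃ M, (∀ f g, e (f * g) = e f + e g) ∧
        ∀ (σ : GalQ) (f g : WithConv (H' →ₐ[R] Qb)),
          (∀ h : H', g h = σ (f h)) → e g = act σ (e f) := by
  obtain ⟨H', i1, i2, h1, h2, h3, e, he1, he2⟩ := exists_hopf_of_isOrder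
    (isOrder_of_equivariant R hR hone hact hzero H hequiv hfg hcomul) hsep
  exact ⟨H', i1, i2, h1, h2, h3, e, he1, fun σ f g hfg =>
    he2 σ (act σ) (fun h hh m => hequiv h hh σ m) f g hfg⟩

end Main

end Fermat.Agent.S19.H19

end
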