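/-
A3 / S19, helper19 — piece ORD, part 7: orders on the torsion of a Galois module.

`J` an abelian group with an additive action of `G_ℚ`, `T = J[n]`.  A finitely generated
equivariant `R`-subalgebra of functions `T → ℚ̄` separating points and closed under
`f ↦ f(s+t)` yields exactly the conclusion of the frozen statement S19 (for `J = J₀(N)`,
`R = ℤ_(ℓ)`).  Mathlib only.
-/
import Fermat.Agent.S19.H19.Equivariant

set_option autoImplicit false
set_option linter.unusedSectionVars false
set_option linter.style.haveILetI false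

noncomputable section

namespace Fermat.Agent.S19.H19

open scoped BigOperators TensorProduct

/-- A principal ideal subring of `ℚ` is integrally closed in `ℚ`. -/
theorem mem_of_isIntegral_of_pid (R : Subring ℚ) [IsPrincipalIdealRing R] (q : ℚ)
    (hq : IsIntegral R q) : q ∈ R := by
  haveI : FaithfulSMul R ℚ :=
    (faithfulSMul_iff_algebraMap_injective R ℚ).mpr Subtype.val_injective
  haveI : IsFractionRing R ℚ := by
    apply IsFractionRing.of_field
    intro z
    refine ⟨⟨(z.num : ℚ), intCast_mem R z.num⟩, ⟨(z.den : ℚ), natCast_mem R z.den⟩, ?_⟩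
    exact (Rat.num_div_den z).symm
  obtain ⟨y, hy⟩ := (IsIntegrallyClosed.isIntegral_iff (R := R) (K := ℚ)).mp hq
  rw [← hy]
  exact y.2

section Torsion

variable {J : Type} [AddCommGroup J] [DistribMulAction GalQ J] (n : ℤ)

/-- The Galois action on the `n`-torsion. -/
def torsionAct (σ : GalQ) (m : Submodule.torsionBy ℤ J n) : Submodule.torsionBy ℤ J n :=
  ⟨σ • (m : J), by
    have hm := m.2
    rw [Submodule.mem_torsionBy_iff] at hm ⊢
    have h1 : n • (σ • (m : J)) = σ • (n • (m : J)) :=
      (map_zsmul (DistribSMul.toAddMonoidHom J σ) n (m : J)).symm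
    rw [h1, hm, smul_zero]⟩

@[simp] theorem coe_torsionAct (σ : GalQ) (m : Submodule.torsionBy ℤ J n) :
    ((torsionAct n σ m : Submodule.torsionBy ℤ J n) : J) = σ • (m : J) := rfl

/-- **Piece ORD for torsion modules**: the S19-shaped conclusion from an order. -/
theorem exists_hopf_torsion (R : Subring ℚ) [IsPrincipalIdealRing R]
    [Finite (Submodule.torsionBy ℤ J n)]
    (H : Subalgebra R (Submodule.torsionBy ℤ J n → Qb))
    (hequiv : ∀ f ∈ H, ∀ (σ : GalQ) (m : Submodule.torsionBy ℤ J n),
      f (torsionAct n σ m) = σ (f m))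
    (hfg : (Subalgebra.toSubmodule H).FG)
    (hsep : ∀ m m' : Submodule.torsionBy ℤ J n, m ≠ m' → ∃ f ∈ H, f m ≠ f m')
    (hcomul : ∀ f ∈ H, (fun p : Submodule.torsionBy ℤ J n × Submodule.torsionBy ℤ J n =>
      f (p.1 + p.2)) ∈ (prodMap H.val H.val).range) :
    ∃ (H' : Type) (_ : CommRing H') (_ : HopfAlgebra R H'),
      Module.Finite R H' ∧ Module.Flat R H' ∧ Coalgebra.IsCocomm R H' ∧
      ∃ e : WithConv (H' →ₐ[R] AlgebraicClosure ℚ) ≃ ↥(Submodule.torsionBy ℤ J n),
        (∀ f g, e (f * g) = e f + e g) ∧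
        ∀ (σ : AlgebraicClosure ℚ ≃ₐ[ℚ] AlgebraicClosure ℚ)
          (f g : WithConv (H' →ₐ[R] AlgebraicClosure ℚ)),
          (∀ h : H', g h = σ (f h)) → ((e g : J)) = σ • (e f : J) := by
  obtain ⟨H', i1, i2, h1, h2, h3, e, he1, he2⟩ :=
    exists_hopf_of_equivariant_order (act := torsionAct (J := J) n) R
      (mem_of_isIntegral_of_pid R)
      (fun m => Subtype.ext (one_smul GalQ (m : J)))
      (fun σ τ m => Subtype.ext (mul_smul σ τ (m : J)).symm)
      (fun σ => Subtype.ext (smul_zero σ))
      H hequiv hfg hsep hcomul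
  exact ⟨H', i1, i2, h1, h2, h3, e, he1, fun σ f g hfg =>
    congrArg Subtype.val (he2 σ f g hfg)⟩

end Torsion

end Fermat.Agent.S19.H19

end
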