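/-
A3 / S19, helper19 — piece ORD, part 5: the antipode is automatic on a finite group.
Mathlib only.
-/
import Fermat.Agent.S19.H19.Order

set_option autoImplicit false
set_option linter.unusedSectionVars false

noncomputable section

namespace Fermat.Agent.S19.H19

open scoped BigOperators TensorProduct

variable {R : Type} [CommRing R] {K : Type} [Field K] [Algebra R K]
variable {M : Type} [AddCommGroup M]

theorem nsmul_mem_of_comul_mem (H : Subalgebra R (M → K))
    (hcomul : ∀ f ∈ H, (fun p : M × M => f (p.1 + p.2)) ∈ (prodMap H.val H.val).range)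
    (hcounit : ∀ f ∈ H, f 0 ∈ (Algebra.ofId R K).range) (k : ℕ) :
    ∀ f ∈ H, (fun m : M => f (k • m)) ∈ H := by
  induction k with
  | zero =>
    intro f hf
    obtain ⟨r, hr⟩ := hcounit f hf
    have : (fun m : M => f (0 • m)) = algebraMap R (M → K) r := by
      funext m
      rw [zero_smul, ← hr]
      rfl
    rw [this]
    exact H.algebraMap_mem r
  | succ k ih =>
    intro f hf
    obtain ⟨x, hx⟩ := hcomul f hf
    replace hx : prodMap H.val H.val x = fun p : M × M => f (p.1 + p.2) := hx
    have key : ∀ y : H ⊗[R] H, (fun m : M => prodMap H.val H.val y (k • m, m)) ∈ H := by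
      intro y
      induction y using TensorProduct.induction_on with
      | zero =>
        simp only [map_zero, Pi.zero_apply]
        exact H.zero_mem
      | tmul a b =>
        have h1 : (fun m : M => prodMap H.val H.val (a ⊗ₜ[R] b) (k • m, m)) =
            (fun m : M => (a : M → K) (k • m)) * (b : M → K) := by
          funext m
          rw [prodMap_tmul]
          rfl
        rw [h1]
        exact H.mul_mem (ih _ a.2) b.2
      | add y z hy hz =>
        have h1 : (fun m : M => prodMap H.val H.val (y + z) (k • m, m)) =
            (fun m : M => prodMap H.val H.val y (k • m, m)) +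
              (fun m : M => prodMap H.val H.val z (k • m, m)) := by
          funext m
          rw [map_add]
          rfl
        rw [h1]
        exact H.add_mem hy hz
    have h2 : (fun m : M => f ((k + 1) • m)) = fun m : M => prodMap H.val H.val x (k • m, m) := by
      funext m
      rw [hx, succ_nsmul]
    rw [h2]
    exact key x

theorem neg_mem_of_comul_mem [Finite M] (H : Subalgebra R (M → K))
    (hcomul : ∀ f ∈ H, (fun p : M × M => f (p.1 + p.2)) ∈ (prodMap H.val H.val).range)
    (hcounit : ∀ f ∈ H, f 0 ∈ (Algebra.ofId R K).range) :
    ∀ f ∈ H, (fun m : M => f (-m)) ∈ H := by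
  intro f hf
  have hpos : 0 < Nat.card M := Nat.card_pos
  have h1 : ∀ m : M, -m = (Nat.card M - 1) • m := by
    intro m
    have h2 : (Nat.card M - 1) • m + m = 0 := by
      rw [← succ_nsmul, Nat.sub_add_cancel hpos]
      exact card_nsmul_eq_zero'
    exact (eq_neg_of_add_eq_zero_left h2).symm
  have h3 : (fun m : M => f (-m)) = fun m : M => f ((Nat.card M - 1) • m) := by
    funext m
    rw [h1]
  rw [h3]
  exact nsmul_mem_of_comul_mem H hcomul hcounit _ f hf

end Fermat.Agent.S19.H19

end
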