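/-
A3 / S19, helper19 — ORD adapter, part 1: finiteness of orders of integral equivariant functions.

`R ⊂ ℚ` a PID, `M` finite with a `G_ℚ`-action.  Any `R`-subalgebra `H ⊂ (M → ℚ̄)` of equivariant
functions with values integral over `R`, separating points, is a finitely generated `R`-module
(trace pairing into `R^T`).  Mathlib only.
-/
import Fermat.Agent.S19.H19.Torsion

set_option autoImplicit false
set_option linter.unusedSectionVars false
set_option linter.style.haveILetI false

noncomputable section

namespace Fermat.Agent.S19.H19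

open scoped BigOperators TensorProduct

variable (R : Subring ℚ) {M : Type} {act : GalQ → M → M}

theorem act_bijective (hone : ∀ m, act 1 m = m)
    (hact : ∀ σ τ m, act σ (act τ m) = act (σ * τ) m) (σ : GalQ) :
    Function.Bijective (act σ) := by
  refine Function.bijective_iff_has_inverse.mpr ⟨act σ⁻¹, ?_, ?_⟩
  · intro m
    rw [hact, inv_mul_cancel, hone]
  · intro m
    rw [hact, mul_inv_cancel, hone]

/-- The sum of the values of an integral equivariant function lies in `R`. -/
theorem sum_mem_range [IsPrincipalIdealRing R] [Fintype M] (hone : ∀ m, act 1 m = m)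
    (hact : ∀ σ τ m, act σ (act τ m) = act (σ * τ) m)
    (f : M → Qb) (hf : IsEquivariant act f) (hint : ∀ m, IsIntegral R (f m)) :
    ∑ m, f m ∈ (Algebra.ofId R Qb).range := by
  apply mem_range_of_fixed_of_isIntegral R (mem_of_isIntegral_of_pid R)
  · intro σ
    rw [map_sum]
    have h1 : ∀ m, σ (f m) = f (act σ m) := fun m => (hf σ m).symm
    simp only [h1]
    exact Fintype.sum_bijective (act σ) (act_bijective hone hact σ) _ _ (fun _ => rfl)
  · exact IsIntegral.sum _ fun m _ => hint m

/-- The `ℚ̄`-span of a separating subalgebra is everything. -/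
theorem span_eq_top_of_separates [Finite M] (H : Subalgebra R (M → Qb))
    (hsep : ∀ m m' : M, m ≠ m' → ∃ f ∈ H, f m ≠ f m') :
    Submodule.span Qb (H : Set (M → Qb)) = ⊤ := by
  have h1 : Algebra.adjoin Qb (H : Set (M → Qb)) = ⊤ := by
    apply subalgebra_eq_top_of_separates
    intro m m' hne
    obtain ⟨f, hf, hfm⟩ := hsep m m' hne
    exact ⟨f, Algebra.subset_adjoin hf, hfm⟩
  have h2 := Algebra.adjoin_eq_span Qb (H : Set (M → Qb))
  have h3 : Submonoid.closure (H : Set (M → Qb)) = H.toSubmonoid :=
    Submonoid.closure_eq H.toSubmonoid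
  rw [h3, h1] at h2
  rw [eq_top_iff]
  intro x _
  have : x ∈ Subalgebra.toSubmodule (⊤ : Subalgebra Qb (M → Qb)) := by simp
  rw [h2] at this
  exact this

/-- **Finiteness.** -/
theorem fg_of_equivariant_integral [IsPrincipalIdealRing R] [Finite M]
    (hone : ∀ m, act 1 m = m) (hact : ∀ σ τ m, act σ (act τ m) = act (σ * τ) m)
    (H : Subalgebra R (M → Qb)) (hequiv : ∀ f ∈ H, IsEquivariant act f)
    (hint : ∀ f ∈ H, ∀ m, IsIntegral R (f m))
    (hsep : ∀ m m' : M, m ≠ m' → ∃ f ∈ H, f m ≠ f m') :
    (Subalgebra.toSubmodule H).FG := by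
  classical
  have := Fintype.ofFinite M
  -- a finite spanning subset of `H`
  have hspan := span_eq_top_of_separates R H hsep
  have h1 : ∀ m : M, ∃ T : Finset (M → Qb), (T : Set (M → Qb)) ⊆ (H : Set (M → Qb)) ∧
      (Pi.single m (1 : Qb) : M → Qb) ∈ Submodule.span Qb (T : Set (M → Qb)) := by
    intro m
    apply Submodule.mem_span_finite_of_mem_span
    rw [hspan]
    exact Submodule.mem_top
  choose Tm hTmH hTm using h1
  let T : Finset (M → Qb) := Finset.univ.biUnion Tm
  have hTH : ∀ a ∈ T, a ∈ H := by
    intro a ha
    obtain ⟨m, -, hm⟩ := Finset.mem_biUnion.mp ha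
    exact hTmH m hm
  have hTspan : ∀ m : M, (Pi.single m (1 : Qb) : M → Qb) ∈
      Submodule.span Qb (T : Set (M → Qb)) := by
    intro m
    refine Submodule.span_mono ?_ (hTm m)
    intro a ha
    exact Finset.mem_biUnion.mpr ⟨m, Finset.mem_univ m, ha⟩
  -- the pairing
  let ψ : H →ₗ[R] (T → Qb) :=
    { toFun := fun f a => ∑ m, (f : M → Qb) m * (a : M → Qb) m
      map_add' := by
        intro f g
        funext a
        simp only [Subalgebra.coe_add, Pi.add_apply, add_mul, Finset.sum_add_distrib]
      map_smul' := by
        intro r f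
        funext a
        simp only [Subalgebra.coe_smul, Pi.smul_apply, RingHom.id_apply, Finset.smul_sum,
          smul_mul_assoc] }
  have hψ : ∀ (f : H) (a : T), ψ f a = ∑ m, (f : M → Qb) m * (a : M → Qb) m := fun _ _ => rfl
  let ι : (T → R) →ₗ[R] (T → Qb) := (Algebra.linearMap R Qb).compLeft T
  have hι : ∀ (v : T → R) (a : T), ι v a = algebraMap R Qb (v a) := fun _ _ => rfl
  have hrange : ∀ f : H, ψ f ∈ LinearMap.range ι := by
    intro f
    have h2 : ∀ a : T, ∃ r : R, algebraMap R Qb r = ψ f a := by
      intro a
      have hfa : (f : M → Qb) * (a : M → Qb) ∈ H := H.mul_mem f.2 (hTH a a.2)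
      have := sum_mem_range R hone hact ((f : M → Qb) * (a : M → Qb)) (hequiv _ hfa)
        (hint _ hfa)
      obtain ⟨r, hr⟩ := this
      exact ⟨r, hr.trans (by rw [hψ]; rfl)⟩
    choose v hv using h2
    exact ⟨v, funext fun a => by rw [hι, hv]⟩
  have hinj : Function.Injective ψ := by
    rw [injective_iff_map_eq_zero]
    intro f hf
    -- the pairing with everything vanishes
    have h3 : ∀ g ∈ Submodule.span Qb (T : Set (M → Qb)), ∑ m, (f : M → Qb) m * g m = 0 := by
      intro g hg
      induction hg using Submodule.span_induction with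
      | mem a ha =>
        have := congrFun hf ⟨a, ha⟩
        rw [hψ] at this
        exact this
      | zero => simp
      | add x y _ _ hx hy =>
        simp only [Pi.add_apply, mul_add, Finset.sum_add_distrib, hx, hy, add_zero]
      | smul c x _ hx =>
        simp only [Pi.smul_apply, smul_eq_mul]
        have : ∀ m, (f : M → Qb) m * (c * x m) = c * ((f : M → Qb) m * x m) := fun m => by ring
        simp only [this, ← Finset.mul_sum, hx, mul_zero]
    apply Subtype.ext
    funext m
    have := h3 _ (hTspan m)
    simp only [Pi.single_apply, mul_ite, mul_one, mul_zero, Finset.sum_ite_eq',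
      Finset.mem_univ, if_true] at this
    exact this
  -- conclude
  haveI : IsNoetherian R (LinearMap.range ι) :=
    isNoetherian_of_fg_of_noetherian _ (Module.Finite.iff_fg.mp (Module.Finite.range ι))
  have hfin : Module.Finite R H :=
    Module.Finite.of_injective (ψ.codRestrict (LinearMap.range ι) hrange)
      (fun x y hxy => hinj (congrArg Subtype.val hxy))
  exact Module.Finite.iff_fg.mp hfin

end Fermat.Agent.S19.H19

end
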