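/-
A3 / S19, helper19 — ORD adapter, part 2: descent of the addition law from `Z̄` to `R`.

`H ⊂ (M → ℚ̄)` a good equivariant `R`-order, `Z ⊂ ℚ̄` an `R`-subalgebra of integral elements.
An equivariant function on `M × M` in the `Z`-algebra generated by functions from the image of
`H ⊗ H` already lies in the image of `H ⊗ H`.  Mathlib only.
-/
import Fermat.Agent.S19.H19.Finite

set_option autoImplicit false
set_option linter.unusedSectionVars false
set_option linter.style.haveILetI false

noncomputable section

namespace Fermat.Agent.S19.H19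

open scoped BigOperators TensorProduct

variable (R : Subring ℚ) {M : Type} {act : GalQ → M → M}

/-- Coefficients of an equivariant function in an independent equivariant family are rational. -/
theorem coeff_fixed_of_equivariant {X : Type} {actX : GalQ → X → X}
    (hone : ∀ x, actX 1 x = x) (hact : ∀ σ τ x, actX σ (actX τ x) = actX (σ * τ) x)
    {ι : Type} [Fintype ι] (e : ι → X → Qb) (he : ∀ i, IsEquivariant actX (e i))
    (hli : LinearIndependent Qb e) (c : ι → Qb) (hg : IsEquivariant actX (∑ i, c i • e i))
    (σ : GalQ) (i : ι) : σ (c i) = c i := by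
  have hconj : ∑ i, (σ (c i)) • e i = ∑ i, c i • e i := by
    funext x
    have h1 := hg σ (actX σ⁻¹ x)
    rw [hact, mul_inv_cancel, hone] at h1
    rw [h1]
    simp only [Finset.sum_apply, Pi.smul_apply, smul_eq_mul, map_sum, map_mul]
    refine Finset.sum_congr rfl fun i _ => ?_
    rw [← he i σ (actX σ⁻¹ x), hact, mul_inv_cancel, hone]
  have hrel : ∑ i, (σ (c i) - c i) • e i = 0 := by
    simp only [sub_smul, Finset.sum_sub_distrib]
    rw [hconj, sub_self]
  exact sub_eq_zero.mp ((Fintype.linearIndependent_iff.mp hli) _ hrel i)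

variable [AddCommGroup M] [Finite M]

/-- **Descent.** -/
theorem mem_range_of_mem_adjoin [IsPrincipalIdealRing R]
    (hone : ∀ m, act 1 m = m) (hact : ∀ σ τ m, act σ (act τ m) = act (σ * τ) m)
    (H : Subalgebra R (M → Qb)) (hequiv : ∀ f ∈ H, IsEquivariant act f)
    (hfg : (Subalgebra.toSubmodule H).FG)
    (Z : Subalgebra R Qb) (hZ : ∀ z ∈ Z, IsIntegral R z)
    (S : Set (M × M → Qb)) (hS : S ⊆ ((prodMap H.val H.val).range : Set (M × M → Qb)))
    (g : M × M → Qb) (hg : g ∈ Algebra.adjoin Z S)
    (hgeq : ∀ (σ : GalQ) (p : M × M), g (act σ p.1, act σ p.2) = σ (g p)) :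
    g ∈ (prodMap H.val H.val).range := by
  classical
  obtain ⟨ι, hι, b, hb⟩ := good_of_equivariant R hone hact H hequiv hfg
  have := Fintype.ofFinite ι
  -- the basis of `H ⊗ H` and its image
  let bb := b.tensorProduct b
  let e : ι × ι → M × M → Qb := fun p => prodMap H.val H.val (bb p)
  have he_apply : ∀ (p : ι × ι) (q : M × M),
      e p q = (b p.1 : M → Qb) q.1 * (b p.2 : M → Qb) q.2 := by
    intro p q
    show prodMap H.val H.val (bb p) q = _
    rw [Module.Basis.tensorProduct_apply', prodMap_tmul]
    rfl
  have hli : LinearIndependent Qb e := by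
    have := linearIndependent_mul _ _ hb hb
    convert this using 1
    funext p q
    rw [he_apply]
    rfl
  let actX : GalQ → M × M → M × M := fun σ p => (act σ p.1, act σ p.2)
  have honeX : ∀ x, actX 1 x = x := fun x => Prod.ext (hone x.1) (hone x.2)
  have hactX : ∀ σ τ x, actX σ (actX τ x) = actX (σ * τ) x :=
    fun σ τ x => Prod.ext (hact σ τ x.1) (hact σ τ x.2)
  have heq : ∀ p, IsEquivariant actX (e p) := by
    intro p σ q
    rw [he_apply, he_apply, map_mul]
    rw [← hequiv _ (b p.1).2 σ q.1, ← hequiv _ (b p.2).2 σ q.2]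
  -- the `Z`-span of the image
  let N : Submodule Z (M × M → Qb) := Submodule.span Z (Set.range e)
  have hrangeN : ∀ y : H ⊗[R] H, prodMap H.val H.val y ∈ N := by
    intro y
    have h1 : prodMap H.val H.val y = ∑ p, (algebraMap R Z (bb.repr y p)) • e p := by
      conv_lhs => rw [← bb.sum_repr y]
      rw [map_sum]
      refine Finset.sum_congr rfl fun p _ => ?_
      rw [map_smul]
      funext q
      simp only [Pi.smul_apply, Algebra.smul_def]
      rfl
    rw [h1]
    exact Submodule.sum_mem _ fun p _ => Submodule.smul_mem _ _ (Submodule.subset_span ⟨p, rfl⟩)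
  have hmulN : ∀ x ∈ N, ∀ y ∈ N, x * y ∈ N := by
    intro x hx y hy
    have h1 : N * N ≤ N := by
      show Submodule.span Z (Set.range e) * Submodule.span Z (Set.range e) ≤ N
      rw [Submodule.span_mul_span]
      apply Submodule.span_le.mpr
      rintro _ ⟨_, ⟨p, rfl⟩, _, ⟨q, rfl⟩, rfl⟩
      have : e p * e q = prodMap H.val H.val (bb p * bb q) := by
        rw [map_mul]
      show e p * e q ∈ N
      rw [this]
      exact hrangeN _
    exact h1 (Submodule.mul_mem_mul hx hy)
  have hadj : ∀ x ∈ Algebra.adjoin Z S, x ∈ N := by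
    intro x hx
    induction hx using Algebra.adjoin_induction with
    | mem x hx =>
      obtain ⟨y, hy⟩ := hS hx
      have : x = prodMap H.val H.val y := hy.symm
      rw [this]
      exact hrangeN y
    | algebraMap z =>
      have h1 : algebraMap Z (M × M → Qb) z = z • (prodMap H.val H.val 1) := by
        rw [map_one, Algebra.algebraMap_eq_smul_one]
      rw [h1]
      exact Submodule.smul_mem _ _ (hrangeN 1)
    | add x y _ _ hx hy => exact Submodule.add_mem _ hx hy
    | mul x y _ _ hx hy => exact hmulN x hx y hy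
  have hgN : g ∈ N := hadj g hg
  -- coefficients
  obtain ⟨c, hc⟩ := (Submodule.mem_span_range_iff_exists_fun Z).mp hgN
  have hc' : g = ∑ p, (c p : Qb) • e p := by
    rw [← hc]
    refine Finset.sum_congr rfl fun p _ => ?_
    rfl
  have hgE : IsEquivariant actX (∑ p, (c p : Qb) • e p) := by
    rw [← hc']
    intro σ p
    exact hgeq σ p
  have hfix : ∀ p (σ : GalQ), σ (c p : Qb) = (c p : Qb) := fun p σ =>
    coeff_fixed_of_equivariant honeX hactX e heq hli (fun p => (c p : Qb)) hgE σ p
  have hr : ∀ p, ∃ r : R, algebraMap R Qb r = (c p : Qb) := by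
    intro p
    have := mem_range_of_fixed_of_isIntegral R (mem_of_isIntegral_of_pid R) (c p : Qb) (hfix p)
      (hZ _ (c p).2)
    obtain ⟨r, hr⟩ := this
    exact ⟨r, hr⟩
  choose r hr using hr
  refine ⟨∑ p, r p • bb p, ?_⟩
  show prodMap H.val H.val (∑ p, r p • bb p) = g
  rw [hc', map_sum]
  refine Finset.sum_congr rfl fun p _ => ?_
  rw [map_smul, ← hr p]
  funext q
  simp only [Pi.smul_apply, Algebra.smul_def]
  rfl

end Fermat.Agent.S19.H19

end
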