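/-
A3 / S19, helper19 — piece ORD, part 8: the frozen statement S19 from an order.

`S19_of_order`: for `T = J₀(N)[ℓ^k]` FINITE, a finitely generated `ℤ_(ℓ)`-subalgebra `H` of
Galois-equivariant functions `T → ℚ̄`, separating points, with `f(s+t) ∈ im (H ⊗ H)`, gives the
conclusion of S19 verbatim.
-/
import Fermat.Agent.S19.H19.Torsion
import Fermat.Agent.S28.H865Dvr
import Fermat.Prelude.Def_ModularCurve_ArithmeticGalois
import Fermat.Prelude.Def_GaloisRep_Flat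

set_option autoImplicit false
set_option linter.style.haveILetI false

noncomputable section

namespace Fermat.Agent.S19.H19

open scoped BigOperators TensorProduct
open ModularCurve

/-- The hypothesis "there is a Hopf order of functions on `J₀(N)[ℓ^k]`". -/
def HasOrder (N ℓ k : ℕ) : Prop :=
  Finite ↥(Submodule.torsionBy ℤ (JZero N) ((ℓ : ℤ) ^ k)) ∧
  ∃ H : Subalgebra (GaloisRep.ratLocalizedAt ℓ)
      (↥(Submodule.torsionBy ℤ (JZero N) ((ℓ : ℤ) ^ k)) → Qb),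
    (∀ f ∈ H, ∀ (σ : GalQ) (m : ↥(Submodule.torsionBy ℤ (JZero N) ((ℓ : ℤ) ^ k))),
      f (torsionAct ((ℓ : ℤ) ^ k) σ m) = σ (f m)) ∧
    (Subalgebra.toSubmodule H).FG ∧
    (∀ m m' : ↥(Submodule.torsionBy ℤ (JZero N) ((ℓ : ℤ) ^ k)), m ≠ m' → ∃ f ∈ H, f m ≠ f m') ∧
    (∀ f ∈ H, (fun p : ↥(Submodule.torsionBy ℤ (JZero N) ((ℓ : ℤ) ^ k)) ×
        ↥(Submodule.torsionBy ℤ (JZero N) ((ℓ : ℤ) ^ k)) => f (p.1 + p.2)) ∈
      (prodMap H.val H.val).range)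

/-- **S19 from an order** (frozen conclusion, verbatim). -/
theorem S19_of_order (p : ℕ) [NeZero p] (ℓ : ℕ) [Fact ℓ.Prime] (k : ℕ)
    (h : HasOrder p ℓ k) :
    ∃ (H : Type) (_ : CommRing H) (_ : HopfAlgebra (GaloisRep.ratLocalizedAt ℓ) H),
      Module.Finite (GaloisRep.ratLocalizedAt ℓ) H ∧ Module.Flat (GaloisRep.ratLocalizedAt ℓ) H ∧
      Coalgebra.IsCocomm (GaloisRep.ratLocalizedAt ℓ) H ∧
      ∃ e : WithConv (H →ₐ[GaloisRep.ratLocalizedAt ℓ] AlgebraicClosure ℚ) ≃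
          ↥(Submodule.torsionBy ℤ (JZero p) ((ℓ : ℤ) ^ k)),
        (∀ f g, e (f * g) = e f + e g) ∧
        ∀ (σ : AlgebraicClosure ℚ ≃ₐ[ℚ] AlgebraicClosure ℚ)
          (f g : WithConv (H →ₐ[GaloisRep.ratLocalizedAt ℓ] AlgebraicClosure ℚ)),
          (∀ h : H, g h = σ (f h)) → ((e g : JZero p)) = σ • (e f : JZero p) := by
  obtain ⟨hfin, H, hequiv, hfg, hsep, hcomul⟩ := h
  haveI := hfin
  haveI : IsPrincipalIdealRing ↥(GaloisRep.ratLocalizedAt ℓ) := inferInstance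
  exact exists_hopf_torsion ((ℓ : ℤ) ^ k) (GaloisRep.ratLocalizedAt ℓ) H hequiv hfg hsep hcomul

end Fermat.Agent.S19.H19

end
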