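/-
A3 / S19, helper19 — **ORD block closed**: `Fermat.Agent.S19.OrdStatement`.

An `OrderDatum` (frozen interface `Fermat/Agent/S19/Defs.lean`: arbitrary set of integral
Galois-equivariant separating functions whose translates are `Z̄_(ℓ)`-polynomial in the coordinate
functions) on a finite abelian group gives a Hopf model over `ℤ_(ℓ)`.
-/
import Fermat.Agent.S19.H19.Descent
import Fermat.Agent.S19.Defs
import Fermat.Agent.S28.H865Dvr

set_option autoImplicit false
set_option linter.unusedSectionVars false
set_option linter.style.haveILetI false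

noncomputable section

namespace Fermat.Agent.S19.H19

open scoped BigOperators TensorProduct

section

variable (R : Subring ℚ) {M : Type} {act : GalQ → M → M}

theorem isEquivariant_of_mem_adjoin (gens : Set (M → Qb))
    (hgens : ∀ f ∈ gens, IsEquivariant act f) :
    ∀ f ∈ Algebra.adjoin R gens, IsEquivariant act f := by
  intro f hf
  induction hf using Algebra.adjoin_induction with
  | mem x hx => exact hgens x hx
  | algebraMap r =>
    intro σ m
    show algebraMap ℚ Qb (r : ℚ) = σ (algebraMap ℚ Qb (r : ℚ))
    rw [AlgEquiv.commutes]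
  | add x y _ _ hx hy =>
    intro σ m
    rw [Pi.add_apply, Pi.add_apply, map_add, hx σ m, hy σ m]
  | mul x y _ _ hx hy =>
    intro σ m
    rw [Pi.mul_apply, Pi.mul_apply, map_mul, hx σ m, hy σ m]

theorem isIntegral_of_mem_adjoin (gens : Set (M → Qb))
    (hgens : ∀ f ∈ gens, ∀ m, IsIntegral R (f m)) :
    ∀ f ∈ Algebra.adjoin R gens, ∀ m, IsIntegral R (f m) := by
  intro f hf
  induction hf using Algebra.adjoin_induction with
  | mem x hx => exact hgens x hx
  | algebraMap r =>
    intro m
    exact isIntegral_algebraMap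
  | add x y _ _ hx hy =>
    intro m
    exact (hx m).add (hy m)
  | mul x y _ _ hx hy =>
    intro m
    exact (hx m).mul (hy m)

variable [AddCommGroup M] [Finite M]

/-- The ORD block for a PID `R ⊂ ℚ` and a set of generators. -/
theorem exists_hopf_of_gens [IsPrincipalIdealRing R]
    (hadd : ∀ (σ : GalQ) (a b : M), act σ (a + b) = act σ a + act σ b)
    (gens : Set (M → Qb))
    (hequiv : ∀ f ∈ gens, IsEquivariant act f)
    (hint : ∀ f ∈ gens, ∀ m, IsIntegral R (f m))
    (hsep : ∀ m m' : M, (∀ f ∈ gens, f m = f m') → m = m')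
    (Z : Subalgebra R Qb) (hZ : ∀ z ∈ Z, IsIntegral R z)
    (hmem : ∀ f ∈ gens, (fun p : M × M => f (p.1 + p.2)) ∈
      Algebra.adjoin Z ({g | ∃ h ∈ gens, g = fun p : M × M => h p.1} ∪
        {g | ∃ h ∈ gens, g = fun p : M × M => h p.2})) :
    ∃ (H' : Type) (_ : CommRing H') (_ : HopfAlgebra R H'),
      Module.Finite R H' ∧ Module.Flat R H' ∧ Coalgebra.IsCocomm R H' ∧
      ∃ e : WithConv (H' →ₐ[R] Qb) ≃ M, (∀ f g, e (f * g) = e f + e g) ∧
        ∀ (σ : GalQ) (f g : WithConv (H' →ₐ[R] Qb)),
          (∀ h : H', g h = σ (f h)) → e g = act σ (e f) := by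
  classical
  have hone : ∀ m, act 1 m = m := fun m =>
    hsep _ _ fun f hf => by rw [hequiv f hf]; rfl
  have hact : ∀ σ τ m, act σ (act τ m) = act (σ * τ) m := fun σ τ m =>
    hsep _ _ fun f hf => by rw [hequiv f hf, hequiv f hf, hequiv f hf]; rfl
  have hzero : ∀ σ, act σ 0 = 0 := fun σ => by
    have := hadd σ 0 0
    rw [add_zero] at this
    exact left_eq_add.mp this
  have hequivH := isEquivariant_of_mem_adjoin (act := act) R gens hequiv
  have hintH := isIntegral_of_mem_adjoin R gens hint
  have hsepH : ∀ m m' : M, m ≠ m' → ∃ f ∈ Algebra.adjoin R gens, f m ≠ f m' := by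
    intro m m' hne
    by_contra hcon
    push Not at hcon
    exact hne (hsep m m' fun f hf => hcon f (Algebra.subset_adjoin hf))
  have hfg := fg_of_equivariant_integral R hone hact (Algebra.adjoin R gens) hequivH hintH hsepH
  have hcomul : ∀ f ∈ Algebra.adjoin R gens, (fun p : M × M => f (p.1 + p.2)) ∈
      (prodMap (Algebra.adjoin R gens).val (Algebra.adjoin R gens).val).range := by
    intro f hf
    induction hf using Algebra.adjoin_induction with
    | mem x hx =>
      refine mem_range_of_mem_adjoin R hone hact (Algebra.adjoin R gens) hequivH hfg Z hZ _ ?_ _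
        (hmem x hx) ?_
      · rintro g (⟨h, hh, rfl⟩ | ⟨h, hh, rfl⟩)
        · refine ⟨(⟨h, Algebra.subset_adjoin hh⟩ : Algebra.adjoin R gens) ⊗ₜ[R] 1, ?_⟩
          funext p
          show prodMap _ _ _ p = _
          rw [prodMap_tmul]
          simp
        · refine ⟨1 ⊗ₜ[R] (⟨h, Algebra.subset_adjoin hh⟩ : Algebra.adjoin R gens), ?_⟩
          funext p
          show prodMap _ _ _ p = _
          rw [prodMap_tmul]
          simp
      · intro σ p
        show x (act σ p.1 + act σ p.2) = σ (x (p.1 + p.2))
        rw [← hadd, hequiv x hx]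
    | algebraMap r =>
      refine ⟨algebraMap R _ r, ?_⟩
      funext p
      show prodMap _ _ _ p = _
      rw [AlgHom.commutes]
      rfl
    | add x y _ _ hx hy =>
      exact (prodMap (Algebra.adjoin R gens).val (Algebra.adjoin R gens).val).range.add_mem hx hy
    | mul x y _ _ hx hy =>
      exact (prodMap (Algebra.adjoin R gens).val (Algebra.adjoin R gens).val).range.mul_mem hx hy
  exact exists_hopf_of_equivariant_order R (mem_of_isIntegral_of_pid R) hone hact hzero
    (Algebra.adjoin R gens) hequivH hfg hsepH hcomul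

end

/-- **ORD block** (frozen interface of cell A3). -/
theorem hopfModel_of_orderDatum (ℓ : ℕ) [Fact ℓ.Prime] (M : Type) [AddCommGroup M] [Finite M]
    (act : Fermat.Agent.S19.GalQ → M → M) (D : OrderDatum ℓ M act) : HopfModel ℓ M act := by
  haveI : IsPrincipalIdealRing ↥(GaloisRep.ratLocalizedAt ℓ) := inferInstance
  exact exists_hopf_of_gens (GaloisRep.ratLocalizedAt ℓ) D.act_add D.gens D.equivariant D.integral
    D.separates (Zb ℓ) (fun _ hz => hz) D.add_mem

/-- **ORD block**: `OrdStatement` holds. -/
theorem ordStatement : OrdStatement := by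
  intro ℓ _ M _ _ act hD
  obtain ⟨D⟩ := hD
  exact hopfModel_of_orderDatum ℓ M act D

end Fermat.Agent.S19.H19

end
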